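/-
S48 / FIN : (I1)-(I5) + GT + LF ==> the Deligne-Serre statement.  No modular forms here: the
q-coefficients are an abstract sequence `a : ℕ → ℂ`.
Definitions and the exact shapes of the hypotheses.   Owner: helper46.
-/
import Mathlib
import Fermat.Agent.Lib.FrobDensity.Apps
import Fermat.Prelude.Def_Deformations_MatrixRepresentation

set_option autoImplicit false

namespace Fermat.Agent.S48.FIN

open Polynomial
open Fermat.Agent.FD (Qb GQ lg)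

/-- the ring of all algebraic integers in `ℂ` -/
abbrev Zb : Type := integralClosure ℤ ℂ

/-- `∑_{p prime, p ∈ P} p^(-s)` -/
noncomputable def psumQ (P : Set ℕ) (s : ℝ) : ℝ :=
  ∑' p : Nat.Primes, P.indicator (fun n : ℕ => (n : ℝ) ^ (-s)) (p : ℕ)

/-- the set of primes `p ∉ S` such that some Frobenius element at some place over `p` is mapped
into `T`. -/
def frobSet {G : Type} [Group G] (r : GQ →* G) (T : Set G) (S : Finset ℕ) : Set ℕ :=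
  {p | p ∉ S ∧ ∃ (A : ValuationSubring Qb) (σ : GQ), A.LiesOverPrime p ∧ A.IsFrobeniusAt σ p ∧
    r σ ∈ T}

/-- every invariant subspace has an invariant complement -/
def SSub {k : Type} [Field k] (G : Subgroup (GL (Fin 2) k)) : Prop :=
  ∀ W : Submodule k (Fin 2 → k), (∀ g ∈ G, ∀ w ∈ W, (g : Matrix (Fin 2) (Fin 2) k).mulVec w ∈ W) →
    ∃ W' : Submodule k (Fin 2 → k),
      (∀ g ∈ G, ∀ w ∈ W', (g : Matrix (Fin 2) (Fin 2) k).mulVec w ∈ W') ∧ IsCompl W W'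

section Hyp

variable (N : ℕ) [NeZero N] (ε : DirichletCharacter ℂ N) (a : ℕ → ℂ)

/-- (I1) -/
def HInt : Prop := ∀ p : ℕ, p.Prime → ¬ p ∣ N → IsIntegral ℤ (a p)

/-- (I2), in terms of finite sums -/
def HRK : Prop := ∃ C : ℝ, ∀ s : ℝ, 1 < s → s ≤ 2 → ∀ P : Finset ℕ,
  (∀ p ∈ P, p.Prime ∧ ¬ p ∣ N) → ∑ p ∈ P, ‖a p‖ ^ 2 * (p : ℝ) ^ (-s) ≤ lg s + C

/-- (I3), in terms of finite sums -/
def HFinset : Prop := ∀ η : ℝ, 0 < η → ∃ (X : Finset ℂ) (C : ℝ), ∀ s : ℝ, 1 < s → s ≤ 2 →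
  ∀ P : Finset ℕ, (∀ p ∈ P, p.Prime ∧ ¬ p ∣ N ∧ a p ∉ X) →
    ∑ p ∈ P, (p : ℝ) ^ (-s) ≤ η * lg s + C

/-- the mod `l` representation of (I4) -/
structure ModRep (l : ℕ) : Type 1 where
  k : Type
  [fk : Field k]
  [ac : IsAlgClosed k]
  [ch : CharP k l]
  φ : Zb →+* k
  r : GQ →* GL (Fin 2) k
  fin : GaloisFactorsThroughFiniteLevel r
  ss : SSub r.range
  unram : ∀ p : ℕ, p.Prime → ¬ p ∣ N * l → ∀ A : ValuationSubring Qb, A.LiesOverPrime p →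
    ∀ σ ∈ A.inertiaSubgroupIn ℚ, r σ = 1
  frob : ∀ p : ℕ, p.Prime → ¬ p ∣ N * l → ∀ A : ValuationSubring Qb, A.LiesOverPrime p →
    ∀ σ : GQ, A.IsFrobeniusAt σ p → ∃ t d : Zb, (t : ℂ) = a p ∧ (d : ℂ) = ε (p : ZMod N) ∧
      ((r σ : GL (Fin 2) k) : Matrix (Fin 2) (Fin 2) k).trace = φ t ∧
      ((r σ : GL (Fin 2) k) : Matrix (Fin 2) (Fin 2) k).det = φ d

attribute [instance] ModRep.fk ModRep.ac ModRep.ch

/-- (I4) -/
def HGal : Prop := ∃ l0 : ℕ, ∀ l : ℕ, l.Prime → l0 < l → Nonempty (ModRep N ε a l)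

/-- what we want at the prime `p` -/
def GoodAt (ρ : GQ →* GL (Fin 2) ℂ) (p : ℕ) : Prop :=
  ∀ A : ValuationSubring Qb, A.LiesOverPrime p →
    (∀ σ ∈ A.inertiaSubgroupIn ℚ, ρ σ = 1) ∧
    ∀ σ : GQ, A.IsFrobeniusAt σ p →
      ((ρ σ : GL (Fin 2) ℂ) : Matrix (Fin 2) (Fin 2) ℂ).trace = a p ∧
      ((ρ σ : GL (Fin 2) ℂ) : Matrix (Fin 2) (Fin 2) ℂ).det = ε (p : ZMod N)

end Hyp

/-- (I5) Chebotarev, lower bound for the Dirichlet density -/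
def HCheb : Prop := ∀ (G : Type) [Group G] [Finite G] (r : GQ →* G), Function.Surjective r →
  GaloisFactorsThroughFiniteLevel r → ∀ T : Set G, (∀ g h : G, g ∈ T → h * g * h⁻¹ ∈ T) →
  ∀ S : Finset ℕ, ∃ C : ℝ, ∀ s : ℝ, 1 < s → s ≤ 2 →
    ((Nat.card T : ℝ) / (Nat.card G : ℝ)) * lg s - C ≤ psumQ (frobSet r T S) s

/-- (GT), in the weak form which is used -/
def HGT : Prop := ∀ e Mc : ℕ, 0 < e → ∃ B : ℕ, ∀ (l : ℕ) (k : Type) [Field k] [IsAlgClosed k]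
  [CharP k l], l.Prime → B < l → ∀ (G : Subgroup (GL (Fin 2) k)) [Finite G], SSub G →
  (∀ g ∈ G, ((g : GL (Fin 2) k) : Matrix (Fin 2) (Fin 2) k).det ^ e = 1) →
  ∀ Pol : Finset (k × k), Pol.card ≤ Mc →
  3 * Nat.card G ≤ 4 * Nat.card {g : G // ((((g : GL (Fin 2) k) : Matrix (Fin 2) (Fin 2) k).trace,
      ((g : GL (Fin 2) k) : Matrix (Fin 2) (Fin 2) k).det) : k × k) ∈ Pol} →
  Nat.card G ≤ B

/-- (LF) -/
def HLF : Prop := ∀ (l : ℕ) (k : Type) [Field k] [CharP k l] (φ : Zb →+* k) (G : Type) [Group G]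
  [Finite G], l.Prime → ¬ l ∣ Nat.card G → ∀ rb : G →* GL (Fin 2) k,
  ∃ r : G →* GL (Fin 2) ℂ, ∀ g : G, ∃ t d : Zb,
    (t : ℂ) = ((r g : GL (Fin 2) ℂ) : Matrix (Fin 2) (Fin 2) ℂ).trace ∧
    (d : ℂ) = ((r g : GL (Fin 2) ℂ) : Matrix (Fin 2) (Fin 2) ℂ).det ∧
    φ t = ((rb g : GL (Fin 2) k) : Matrix (Fin 2) (Fin 2) k).trace ∧
    φ d = ((rb g : GL (Fin 2) k) : Matrix (Fin 2) (Fin 2) k).det

end Fermat.Agent.S48.FIN
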