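/-
S48 / FIN : algebraic integers and their reductions.
-/
import Fermat.Agent.S48.FIN.Defs

set_option autoImplicit false

namespace Fermat.Agent.S48.FIN

/-- TASK FIN-AlgInt.  A nonzero algebraic integer is killed by `φ : Zb → k` only for finitely many
residue characteristics.  Proof: let `P = minpoly ℤ z` (monic, irreducible or at least of minimal
degree), `c0 = P.coeff 0 ≠ 0` (otherwise `X ∣ P` and `z ≠ 0` is a root of `P / X`, of smaller
degree); `P = X * Q + C c0`, so `z * (-Q(z)) = c0` in `Zb`; if `φ z = 0` then `(c0 : k) = 0`, so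
`l ∣ c0` (`CharP.intCast_eq_zero_iff`), `l ≤ |c0|`.  Take `c = c0.natAbs`. -/
theorem exists_bound_ne_zero (z : Zb) (hz : z ≠ 0) :
    ∃ c : ℕ, ∀ (l : ℕ) (k : Type) [Field k] [CharP k l] (φ : Zb →+* k), c < l → φ z ≠ 0 := by
  have hint : IsIntegral ℤ z := integralClosure.isIntegral z
  have hc0 : (minpoly ℤ z).coeff 0 ≠ 0 := by
    intro h0
    have hX : (minpoly ℤ z).divX * Polynomial.X = minpoly ℤ z := by
      have h := Polynomial.divX_mul_X_add (minpoly ℤ z)
      rwa [h0, map_zero, add_zero] at h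
    have hmon : (minpoly ℤ z).divX.Monic :=
      Polynomial.Monic.of_mul_monic_right Polynomial.monic_X (by rw [hX]; exact minpoly.monic hint)
    have hroot : Polynomial.aeval z (minpoly ℤ z).divX = 0 := by
      have h := minpoly.aeval ℤ z
      rw [← hX, map_mul, Polynomial.aeval_X] at h
      exact (mul_eq_zero.1 h).resolve_right hz
    exact absurd (minpoly.min ℤ z hmon hroot)
      (not_le.2 (Polynomial.degree_divX_lt (minpoly.ne_zero hint)))
  refine ⟨((minpoly ℤ z).coeff 0).natAbs, fun l k _ _ φ hl hφ => ?_⟩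
  have h1 : Polynomial.aeval z (minpoly ℤ z) = 0 := minpoly.aeval ℤ z
  rw [← Polynomial.divX_mul_X_add (minpoly ℤ z), map_add, map_mul, Polynomial.aeval_X,
    Polynomial.aeval_C] at h1
  have h2 := congrArg φ h1
  rw [map_add, map_mul, hφ, mul_zero, zero_add, map_zero, eq_intCast, map_intCast] at h2
  have h3 : (l : ℤ) ∣ (minpoly ℤ z).coeff 0 := (CharP.intCast_eq_zero_iff k l _).1 h2
  have h4 : l ∣ ((minpoly ℤ z).coeff 0).natAbs := Int.natCast_dvd.1 h3
  have h5 := Nat.le_of_dvd (Int.natAbs_pos.2 hc0) h4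
  omega

/-- TASK FIN-AlgInt.  Finite version. -/
theorem exists_bound_ne_zero_finset (Z : Finset Zb) (hz : ∀ z ∈ Z, z ≠ 0) :
    ∃ c : ℕ, ∀ (l : ℕ) (k : Type) [Field k] [CharP k l] (φ : Zb →+* k), c < l →
      ∀ z ∈ Z, φ z ≠ 0 := by
  classical
  have h : ∀ z : Zb, ∃ c : ℕ, z ≠ 0 → ∀ (l : ℕ) (k : Type) [Field k] [CharP k l] (φ : Zb →+* k),
      c < l → φ z ≠ 0 := by
    intro z
    by_cases h0 : z = 0
    · exact ⟨0, fun h => absurd h0 h⟩
    · obtain ⟨c, hc⟩ := exists_bound_ne_zero z h0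
      exact ⟨c, fun _ => hc⟩
  choose c hc using h
  refine ⟨Z.sup c, fun l k _ _ φ hl z hzZ => ?_⟩
  exact hc z (hz z hzZ) l k φ (lt_of_le_of_lt (Finset.le_sup hzZ) hl)

/-- a primitive `n`-th root of unity in `Zb`. -/
theorem AlgInt_exists_primitiveRoot (n : ℕ) (hn : 0 < n) : ∃ ζ : Zb, IsPrimitiveRoot ζ n := by
  have h := Complex.isPrimitiveRoot_exp n hn.ne'
  refine ⟨⟨_, h.isIntegral hn⟩, ?_⟩
  exact IsPrimitiveRoot.of_map_of_injective (f := algebraMap Zb ℂ) h Subtype.val_injective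

/-- TASK FIN-AlgInt.  `X^n - 1 = ∏_{ζ ∈ μ_n(ℂ)} (X - ζ)` in `ℂ[X]` hence in `Zb[X]` (the `ζ` are
integral; `Zb → ℂ` is injective); apply `φ` and evaluate at `u`:  `0 = ∏ (u - φ ζ)`.
(`Polynomial.X_pow_sub_one_eq_prod` with the primitive root `Complex.isPrimitiveRoot_exp`,
or `Polynomial.nthRoots`.) -/
theorem exists_root_of_unity_lift (n : ℕ) (hn : 0 < n) {k : Type} [Field k] (φ : Zb →+* k) (u : k)
    (hu : u ^ n = 1) : ∃ α : Zb, α ^ n = 1 ∧ φ α = u := by
  obtain ⟨ζ, hζ⟩ := AlgInt_exists_primitiveRoot n hn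
  have h1 := Polynomial.X_pow_sub_one_eq_prod hn hζ
  have h2 := congrArg (fun P : Polynomial Zb => (P.map φ).eval u) h1
  simp only [Polynomial.map_sub, Polynomial.map_pow, Polynomial.map_X, Polynomial.map_one,
    Polynomial.eval_sub, Polynomial.eval_pow, Polynomial.eval_X, Polynomial.eval_one,
    Polynomial.map_prod, Polynomial.eval_prod, Polynomial.map_C, Polynomial.eval_C] at h2
  rw [hu, sub_self, eq_comm, Finset.prod_eq_zero_iff] at h2
  obtain ⟨α, hα, h3⟩ := h2
  exact ⟨α, (Polynomial.mem_nthRootsFinset hn 1).1 hα, (sub_eq_zero.1 h3).symm⟩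

/-- TASK FIN-AlgInt.  The `n`-th roots of unity in `Zb` form a finite set. -/
theorem finite_rootsOfUnity (n : ℕ) (hn : 0 < n) : {α : Zb | α ^ n = 1}.Finite :=
  (Polynomial.nthRootsFinset n (1 : Zb)).finite_toSet.subset
    (fun _ hα => (Polynomial.mem_nthRootsFinset hn 1).2 hα)

end Fermat.Agent.S48.FIN
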