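/-
S48 / FIN : representations of finite level (TASK FIN-Level).
-/
import Fermat.Agent.S48.FIN.Defs

set_option autoImplicit false

namespace Fermat.Agent.S48.FIN

open Fermat.Agent.FD (Qb GQ lg)

/-- TASK FIN-Level.  `ρ σ` only depends on `σ|_L : L →ₐ[ℚ] Qb`, and `L →ₐ[ℚ] Qb` is finite:
if `σ|_L = τ|_L` then `τ⁻¹ * σ` fixes `L` pointwise, so `ρ (τ⁻¹ * σ) = 1`. -/
theorem finite_range {M : Type} [Group M] (ρ : GQ →* M)
    (h : GaloisFactorsThroughFiniteLevel ρ) : Finite ρ.range := by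
  obtain ⟨L, hL, h⟩ := h
  have key : ∀ σ τ : GQ, (∀ x ∈ L, σ x = τ x) → ρ σ = ρ τ := by
    intro σ τ hστ
    have : ρ (τ⁻¹ * σ) = 1 := h _ (fun x hx => by
      rw [AlgEquiv.mul_apply, hστ x hx]; exact τ.symm_apply_apply x)
    rw [map_mul, map_inv, inv_mul_eq_one] at this
    exact this.symm
  have : Finite (L →ₐ[ℚ] Qb) := inferInstance
  let f : ρ.range → (L →ₐ[ℚ] Qb) :=
    fun m => ((Classical.choose m.2 : GQ) : Qb →ₐ[ℚ] Qb).comp L.val
  apply Finite.of_injective f
  intro m m' hmm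
  apply Subtype.ext
  rw [← Classical.choose_spec m.2, ← Classical.choose_spec m'.2]
  apply key
  intro x hx
  exact DFunLike.congr_fun hmm ⟨x, hx⟩

/-- TASK FIN-Level. -/
theorem finiteLevel_rangeRestrict {M : Type} [Group M] (ρ : GQ →* M)
    (h : GaloisFactorsThroughFiniteLevel ρ) : GaloisFactorsThroughFiniteLevel ρ.rangeRestrict := by
  obtain ⟨L, hL, h⟩ := h
  exact ⟨L, hL, fun σ hσ => Subtype.ext (h σ hσ)⟩

/-- TASK FIN-Level. -/
theorem finiteLevel_comp {M M' : Type} [Group M] [Group M'] (ρ : GQ →* M) (f : M →* M')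
    (h : GaloisFactorsThroughFiniteLevel ρ) : GaloisFactorsThroughFiniteLevel (f.comp ρ) := by
  obtain ⟨L, hL, h⟩ := h
  exact ⟨L, hL, fun σ hσ => by rw [MonoidHom.comp_apply, h σ hσ, map_one]⟩

/-- TASK FIN-Level.  every value of a representation of finite level has finite order; the
exponent is uniform. -/
theorem pow_card_range_eq_one {M : Type} [Group M] (ρ : GQ →* M)
    (h : GaloisFactorsThroughFiniteLevel ρ) (σ : GQ) : ρ σ ^ Nat.card ρ.range = 1 := by
  have := finite_range ρ h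
  have := pow_card_eq_one' (G := ρ.range) (x := ⟨ρ σ, σ, rfl⟩)
  exact congrArg Subtype.val this

/-- TASK FIN-Level. -/
theorem card_range_pos {M : Type} [Group M] (ρ : GQ →* M)
    (h : GaloisFactorsThroughFiniteLevel ρ) : 0 < Nat.card ρ.range := by
  have := finite_range ρ h
  exact Nat.card_pos

end Fermat.Agent.S48.FIN
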