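/-
S48 / FIN : lemmas on 2 x 2 matrices.
-/
import Fermat.Agent.S48.FIN.Defs

set_option autoImplicit false

namespace Fermat.Agent.S48.FIN

/-- Cayley-Hamilton for `2 x 2` matrices. -/
theorem Mat_sq_eq {K : Type*} [CommRing K] (M : Matrix (Fin 2) (Fin 2) K) :
    M ^ 2 = M.trace • M - M.det • (1 : Matrix (Fin 2) (Fin 2) K) := by
  ext i j
  fin_cases i <;> fin_cases j <;>
    simp [pow_two, Matrix.mul_apply, Fin.sum_univ_two, Matrix.trace_fin_two, Matrix.det_fin_two] <;>
    ring

theorem Mat_pow_add_two {K : Type*} [CommRing K] (M : Matrix (Fin 2) (Fin 2) K) (j : ℕ) :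
    M ^ (j + 2) = M.trace • M ^ (j + 1) - M.det • M ^ j := by
  rw [pow_add, Mat_sq_eq, mul_sub, mul_smul_comm, mul_smul_comm, mul_one, pow_succ]

theorem Mat_trace_pow_add_two {K : Type*} [CommRing K] (M : Matrix (Fin 2) (Fin 2) K) (j : ℕ) :
    (M ^ (j + 2)).trace = M.trace * (M ^ (j + 1)).trace - M.det * (M ^ j).trace := by
  rw [Mat_pow_add_two, Matrix.trace_sub, Matrix.trace_smul, Matrix.trace_smul, smul_eq_mul,
    smul_eq_mul]

/-- TASK FIN-Mat.  Cayley-Hamilton: `M^(j+2) = tr M • M^(j+1) - det M • M^j`, so `tr (M^j)` satisfies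
a recursion which only depends on `tr M`, `det M` (`tr (M^0) = 2`); `det (M^j) = (det M)^j`.
(Compare `Fermat.Agent.FD.charpoly_pow_eq`.) -/
theorem trace_det_pow_eq {K : Type*} [CommRing K] (M M' : Matrix (Fin 2) (Fin 2) K)
    (ht : M.trace = M'.trace) (hd : M.det = M'.det) (j : ℕ) :
    (M ^ j).trace = (M' ^ j).trace ∧ (M ^ j).det = (M' ^ j).det := by
  refine ⟨?_, by rw [Matrix.det_pow, Matrix.det_pow, hd]⟩
  induction j using Nat.strong_induction_on with
  | _ j ih =>
    match j, ih with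
    | 0, _ => simp
    | 1, _ => simpa using ht
    | (j + 2), ih =>
      rw [Mat_trace_pow_add_two, Mat_trace_pow_add_two, ih (j + 1) (by omega), ih j (by omega),
        ht, hd]

/-- A root of the characteristic polynomial of `M`, `M ^ n = 1`, is an `n`-th root of unity. -/
theorem Mat_pow_eq_one_of_root {K : Type*} [Field K]
    (M : Matrix (Fin 2) (Fin 2) K) (n : ℕ) (hM : M ^ n = 1) (u : K)
    (hu : u ^ 2 - M.trace * u + M.det = 0) : u ^ n = 1 := by
  have hdet : (u • (1 : Matrix (Fin 2) (Fin 2) K) - M).det = 0 := by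
    rw [← hu]
    simp [Matrix.det_fin_two, Matrix.trace_fin_two]
    ring
  obtain ⟨w, hw0, hw⟩ := Matrix.exists_mulVec_eq_zero_iff.mpr hdet
  have h1 : M.mulVec w = u • w := by
    rw [Matrix.sub_mulVec, Matrix.smul_mulVec, Matrix.one_mulVec, sub_eq_zero] at hw
    exact hw.symm
  have h2 : ∀ k : ℕ, (M ^ k).mulVec w = u ^ k • w := by
    intro k
    induction k with
    | zero => simp
    | succ k ih =>
      rw [pow_succ, ← Matrix.mulVec_mulVec, h1, Matrix.mulVec_smul, ih, smul_smul, pow_succ,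
        mul_comm]
  have h3 := h2 n
  rw [hM, Matrix.one_mulVec] at h3
  have h4 : (u ^ n - 1) • w = 0 := by
    rw [sub_smul, one_smul, ← h3, sub_self]
  rcases smul_eq_zero.mp h4 with h | h
  · exact sub_eq_zero.mp h
  · exact absurd h hw0

/-- TASK FIN-Mat.  The characteristic polynomial `X^2 - tr M X + det M` splits: `(X-u)(X-v)`.
`u` is an eigenvalue: `det (u • 1 - M) = 0`, so `M *ᵥ w = u • w` for some `w ≠ 0`
(`Matrix.exists_mulVec_eq_zero_iff`), hence `w = M^n *ᵥ w = u^n • w` and `u^n = 1`. -/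
theorem exists_roots_of_pow_eq_one {K : Type*} [Field K] [IsAlgClosed K]
    (M : Matrix (Fin 2) (Fin 2) K) (n : ℕ) (hM : M ^ n = 1) :
    ∃ u v : K, u ^ n = 1 ∧ v ^ n = 1 ∧ M.trace = u + v ∧ M.det = u * v := by
  obtain ⟨u, hu⟩ : ∃ u : K, u ^ 2 - M.trace * u + M.det = 0 := by
    have hdeg : (Polynomial.X ^ 2 - Polynomial.C M.trace * Polynomial.X +
        Polynomial.C M.det : Polynomial K).degree ≠ 0 := by
      have : (Polynomial.X ^ 2 - Polynomial.C M.trace * Polynomial.X +
          Polynomial.C M.det : Polynomial K)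
          = Polynomial.C 1 * Polynomial.X ^ 2 + Polynomial.C (-M.trace) * Polynomial.X +
            Polynomial.C M.det := by
        simp only [Polynomial.C_neg, Polynomial.C_1]
        ring
      rw [this, Polynomial.degree_quadratic one_ne_zero]
      decide
    obtain ⟨u, hu⟩ := IsAlgClosed.exists_root _ hdeg
    refine ⟨u, ?_⟩
    simpa [Polynomial.IsRoot] using hu
  refine ⟨u, M.trace - u, Mat_pow_eq_one_of_root M n hM u hu,
    Mat_pow_eq_one_of_root M n hM _ ?_, by ring, ?_⟩
  · linear_combination hu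
  · linear_combination hu

/-- TASK FIN-Mat.  `E = M - 1` satisfies `E^2 = 0` (Cayley-Hamilton: `M^2 - 2 M + 1 = 0`), so
`M^n = 1 + n E`, `n E = 0`, `E = 0`. -/
theorem eq_one_of_unipotent (M : Matrix (Fin 2) (Fin 2) ℂ) (n : ℕ) (hn : 0 < n) (hM : M ^ n = 1)
    (ht : M.trace = 2) (hd : M.det = 1) : M = 1 := by
  have hsq : M * M = (2 : ℂ) • M - 1 := by
    have := Mat_sq_eq M
    rw [ht, hd, one_smul, pow_two] at this
    exact this
  have hpow : ∀ k : ℕ, M ^ k = 1 + (k : ℂ) • (M - 1) := by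
    intro k
    induction k with
    | zero => simp
    | succ k ih =>
      rw [pow_succ, ih, add_mul, one_mul, smul_mul_assoc, sub_mul, one_mul, hsq]
      push_cast
      module
  have h1 := hpow n
  rw [hM] at h1
  have h2 : (n : ℂ) • (M - 1) = 0 := by
    have := h1.symm
    rwa [add_eq_left] at this
  rcases smul_eq_zero.mp h2 with h | h
  · exact absurd (Nat.cast_eq_zero.mp h) (by omega)
  · exact sub_eq_zero.mp h

end Fermat.Agent.S48.FIN
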