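/-
S48 / FIN : `lg` and prime sums (TASK FIN-Psum).
-/
import Fermat.Agent.S48.FIN.Defs

set_option autoImplicit false

namespace Fermat.Agent.S48.FIN

open Fermat.Agent.FD (Qb GQ lg)

/-- TASK FIN-Psum.  `lg s = -log (s-1) → +∞` as `s → 1+`: if `0 < c` take `s = 1 + exp (-(C/c+1))`
(`≤ 2` if `C ≥ 0`; replace `C` by `max C 0`). -/
theorem lg_unbounded (c C : ℝ) (h : ∀ s : ℝ, 1 < s → s ≤ 2 → c * lg s ≤ C) : c ≤ 0 := by
  by_contra hc
  push Not at hc
  set D : ℝ := max C 0 / c + 1 with hD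
  have hD0 : 0 < D := by
    have : 0 ≤ max C 0 / c := div_nonneg (le_max_right _ _) hc.le
    linarith
  have h1 : (1 : ℝ) < 1 + Real.exp (-D) := by
    have := Real.exp_pos (-D)
    linarith
  have h2 : 1 + Real.exp (-D) ≤ 2 := by
    have : Real.exp (-D) ≤ 1 := Real.exp_le_one_iff.2 (by linarith)
    linarith
  have h3 := h _ h1 h2
  have h4 : lg (1 + Real.exp (-D)) = D := by
    rw [lg, add_sub_cancel_left, Real.log_exp, neg_neg]
  rw [h4, hD, mul_add, mul_div_cancel₀ _ hc.ne', mul_one] at h3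
  have := le_max_left C 0
  linarith

/-- TASK FIN-Psum. -/
theorem lg_nonneg (s : ℝ) (h1 : 1 < s) (h2 : s ≤ 2) : 0 ≤ lg s := by
  rw [lg, neg_nonneg]
  exact Real.log_nonpos (by linarith) (by linarith)

/-- TASK FIN-Psum.  `∑ p^(-s)` over the primes is summable for `s > 1`
(`Nat.Primes.summable_rpow`). -/
theorem summable_indicator (P : Set ℕ) (s : ℝ) (hs : 1 < s) :
    Summable fun p : Nat.Primes => P.indicator (fun n : ℕ => (n : ℝ) ^ (-s)) (p : ℕ) := by
  have h0 : Summable fun p : Nat.Primes => ((p : ℕ) : ℝ) ^ (-s) :=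
    Nat.Primes.summable_rpow.2 (by linarith)
  refine Summable.of_nonneg_of_le (fun p => ?_) (fun p => ?_) h0
  · exact Set.indicator_nonneg (fun n _ => Real.rpow_nonneg (Nat.cast_nonneg n) _) _
  · exact Set.indicator_le_self' (fun n _ => Real.rpow_nonneg (Nat.cast_nonneg n) _) _

/-- TASK FIN-Psum.  A weighted finite combination of prime sums is bounded by `B` as soon as all
the finite sums of a dominating nonnegative function `w p * p^(-s)` (over primes in `Q`) are.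
Proof: `∑ i, t i * psumQ (P i) s = ∑' p, (∑ i, t i * 1_{P i}(p)) p^(-s)` (`tsum_finsetSum`,
`tsum_mul_left`, `summable_indicator`); then `Summable.tsum_le_of_sum_le` / `tsum_le_of_sum_le'`:
for a finite set `F` of primes, drop the primes for which all the indicators vanish. -/
theorem sum_psumQ_le {ι : Type} (I : Finset ι) (t : ι → ℝ) (ht : ∀ i ∈ I, 0 ≤ t i)
    (P : ι → Set ℕ) (Q : Set ℕ) (w : ℕ → ℝ) (s : ℝ) (hs : 1 < s) (B : ℝ) (hB0 : 0 ≤ B)
    (hPQ : ∀ i ∈ I, P i ⊆ Q)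
    (hw : ∀ p : ℕ, p.Prime → p ∈ Q → ∑ i ∈ I, t i * (P i).indicator (fun _ => (1 : ℝ)) p ≤ w p)
    (hB : ∀ F : Finset ℕ, (∀ p ∈ F, p.Prime ∧ p ∈ Q) → ∑ p ∈ F, w p * (p : ℝ) ^ (-s) ≤ B) :
    ∑ i ∈ I, t i * psumQ (P i) s ≤ B := by
  classical
  have h1 : ∑ i ∈ I, t i * psumQ (P i) s =
      ∑' p : Nat.Primes, ∑ i ∈ I, t i * (P i).indicator (fun n : ℕ => (n : ℝ) ^ (-s)) (p : ℕ) := by
    rw [Summable.tsum_finsetSum (fun i _ => (summable_indicator (P i) s hs).mul_left (t i))]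
    refine Finset.sum_congr rfl fun i _ => ?_
    rw [psumQ, tsum_mul_left]
  rw [h1]
  refine Real.tsum_le_of_sum_le (fun p => ?_) (fun F => ?_)
  · exact Finset.sum_nonneg fun i hi => mul_nonneg (ht i hi)
      (Set.indicator_nonneg (fun n _ => Real.rpow_nonneg (Nat.cast_nonneg n) _) _)
  · -- restrict to the primes in `Q`
    set F' : Finset ℕ := (F.image (fun p : Nat.Primes => (p : ℕ))).filter (· ∈ Q) with hF'
    have hF'1 : ∀ p ∈ F', p.Prime ∧ p ∈ Q := by
      intro p hp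
      rw [hF', Finset.mem_filter, Finset.mem_image] at hp
      obtain ⟨⟨x, _, rfl⟩, hq⟩ := hp
      exact ⟨x.2, hq⟩
    refine le_trans ?_ (hB F' hF'1)
    have h2 : ∑ p ∈ F, ∑ i ∈ I, t i * (P i).indicator (fun n : ℕ => (n : ℝ) ^ (-s)) (p : ℕ) =
        ∑ p ∈ F.image (fun p : Nat.Primes => (p : ℕ)),
          ∑ i ∈ I, t i * (P i).indicator (fun n : ℕ => (n : ℝ) ^ (-s)) p := by
      exact (Finset.sum_image (f := fun p : ℕ =>
        ∑ i ∈ I, t i * (P i).indicator (fun n : ℕ => (n : ℝ) ^ (-s)) p)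
        (g := fun p : Nat.Primes => (p : ℕ)) (fun x _ y _ hxy => Subtype.ext hxy)).symm
    rw [h2, hF', Finset.sum_filter]
    refine Finset.sum_le_sum fun p hp => ?_
    obtain ⟨x, _, rfl⟩ := Finset.mem_image.1 hp
    by_cases hq : (x : ℕ) ∈ Q
    · rw [if_pos hq]
      have h3 : ∑ i ∈ I, t i * (P i).indicator (fun n : ℕ => (n : ℝ) ^ (-s)) (x : ℕ) =
          (∑ i ∈ I, t i * (P i).indicator (fun _ => (1 : ℝ)) (x : ℕ)) * ((x : ℕ) : ℝ) ^ (-s) := by
        rw [Finset.sum_mul]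
        refine Finset.sum_congr rfl fun i _ => ?_
        by_cases hx : (x : ℕ) ∈ P i
        · rw [Set.indicator_of_mem hx, Set.indicator_of_mem hx, mul_one]
        · rw [Set.indicator_of_notMem hx, Set.indicator_of_notMem hx, mul_zero, zero_mul]
      rw [h3]
      exact mul_le_mul_of_nonneg_right (hw _ x.2 hq) (Real.rpow_nonneg (Nat.cast_nonneg _) _)
    · rw [if_neg hq]
      refine le_of_eq (Finset.sum_eq_zero fun i hi => ?_)
      rw [Set.indicator_of_notMem (fun h => hq (hPQ i hi h)), mul_zero]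

/-- TASK FIN-Psum.  Special case of `sum_psumQ_le` (`ι = Unit`, `t = 1`, `w = 1`). -/
theorem psumQ_le (P : Set ℕ) (s : ℝ) (hs : 1 < s) (B : ℝ) (hB0 : 0 ≤ B)
    (hB : ∀ F : Finset ℕ, (∀ p ∈ F, p.Prime ∧ p ∈ P) → ∑ p ∈ F, (p : ℝ) ^ (-s) ≤ B) :
    psumQ P s ≤ B := by
  have := sum_psumQ_le (ι := Unit) {()} (fun _ => 1) (fun _ _ => zero_le_one) (fun _ => P) P
    (fun _ => 1) s hs B hB0 (fun _ _ => subset_rfl)
    (fun p _ hp => by simp [Set.indicator_of_mem hp])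
    (fun F hF => by simpa using hB F hF)
  simpa using this

end Fermat.Agent.S48.FIN
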