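/-
S48 / FIN : general lemmas.
-/
import Fermat.Agent.S48.FIN.Level
import Fermat.Agent.S48.FIN.Psum
import Fermat.Agent.S48.FIN.Mat
import Fermat.Agent.S48.FIN.AlgInt
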