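/-
S48 / FIN : step A, determinants (TASK FIN-Det).
-/
import Fermat.Agent.S48.FIN.Basic

set_option autoImplicit false

namespace Fermat.Agent.S48.FIN

open Fermat.Agent.FD (Qb GQ lg)

variable {N : ℕ} [NeZero N] {ε : DirichletCharacter ℂ N} {a : ℕ → ℂ}

/-- TASK FIN-Det.  `g = R.r σ`.  By `Fermat.Agent.FD.exists_frobenius_of_finiteLevel R.r R.fin σ T`
with `T = (N * l).primeFactors` there are a prime `p ∤ N l`, a place `A` over `p`, a Frobenius `φ'`
at `A` and `j` with `R.r σ = R.r φ' ^ j`.  `det (R.r φ') = R.φ d` with `(d : ℂ) = ε p`, and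
`(ε p)^(φ(N)) = ε (p^φ(N)) = ε 1 = 1` (`ZMod.pow_totient`, `p` coprime to `N`), so `d^φ(N) = 1` in
`Zb` (injectivity of the coercion). -/
theorem det_pow_eq_one (l : ℕ) (hl : l.Prime) (R : ModRep N ε a l) (g : GL (Fin 2) R.k)
    (hg : g ∈ R.r.range) :
    ((g : GL (Fin 2) R.k) : Matrix (Fin 2) (Fin 2) R.k).det ^ N.totient = 1 := by
  obtain ⟨σ, rfl⟩ := hg
  have hNl : N * l ≠ 0 := mul_ne_zero (NeZero.ne N) hl.ne_zero
  obtain ⟨p, A, φ', hp, hpT, hA, hφ', -, -, j, hj⟩ :=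
    Fermat.Agent.FD.exists_frobenius_of_finiteLevel R.r R.fin σ (N * l).primeFactors
  have hpNl : ¬ p ∣ N * l := fun h => hpT (Nat.mem_primeFactors.2 ⟨hp, h, hNl⟩)
  have hpN : ¬ p ∣ N := fun h => hpNl (h.mul_right l)
  obtain ⟨t, d, -, hd, -, hdet⟩ := R.frob p hp hpNl A hA φ' hφ'
  have hcop : p.Coprime N := (Nat.Prime.coprime_iff_not_dvd hp).2 hpN
  have hd1 : d ^ N.totient = 1 := by
    apply Subtype.ext
    have h1 : ((d ^ N.totient : Zb) : ℂ) = (d : ℂ) ^ N.totient := rfl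
    rw [h1, hd, ← map_pow]
    have h2 : ((p : ZMod N)) ^ N.totient = 1 := by
      have h3 := ZMod.pow_totient (ZMod.unitOfCoprime p hcop)
      have h4 := congrArg (Units.val) h3
      rwa [Units.val_pow_eq_pow_val, ZMod.coe_unitOfCoprime, Units.val_one] at h4
    rw [h2, map_one]
    rfl
  rw [hj, Units.val_pow_eq_pow_val, Matrix.det_pow, hdet, ← pow_mul, mul_comm, pow_mul, ← map_pow,
    hd1, map_one, one_pow]

end Fermat.Agent.S48.FIN
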