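/-
S48 / FIN : step A, most elements of the image have one of few characteristic polynomials (TASK FIN-Prop).
-/
import Fermat.Agent.S48.FIN.Basic

set_option autoImplicit false

namespace Fermat.Agent.S48.FIN

open Fermat.Agent.FD (Qb GQ lg)

variable {N : ℕ} [NeZero N] {ε : DirichletCharacter ℂ N} {a : ℕ → ℂ}

/-- TASK FIN-Prop.  `G = R.r.range` (finite: `finite_range`).  Put
`Pol = image of (x, u) ↦ (φ' x, φ' (ε u))` on `X ×ˢ (univ : Finset (ZMod N))`, where
`φ' x = if h : IsIntegral ℤ x then R.φ ⟨x, h⟩ else 0`; `Pol.card ≤ X.card * N`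
(`Finset.card_image_le`, `ZMod.card`).  `T = {g : G | (tr g, det g) ∉ Pol}` is stable under
conjugation (`Matrix.trace_mul_cycle` / `Matrix.trace_units_conj`, `Matrix.det_units_conj`).
`hCh` for `R.r.rangeRestrict` (surjective, of finite level), `T`, `S = (N * l).primeFactors` gives
`C1` with `(|T|/|G|) lg s - C1 ≤ psumQ (frobSet ..) s`.  If `p` is a prime in `frobSet ..` then
`p ∤ N l`, and `R.frob` shows `(tr, det) = (φ t, φ d)`, `t = a p`, `d = ε p`; as this is not in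
`Pol`, `a p ∉ X`.  So `psumQ_le` and `hX` give `psumQ .. ≤ (1/4) lg s + max C 0`.  `lg_unbounded`
gives `|T|/|G| ≤ 1/4`, and `|G| = |T| + |{g // (tr g, det g) ∈ Pol}|`. -/
theorem proportion (hCh : HCheb) (X : Finset ℂ) (C : ℝ)
    (hX : ∀ s : ℝ, 1 < s → s ≤ 2 → ∀ P : Finset ℕ, (∀ p ∈ P, p.Prime ∧ ¬ p ∣ N ∧ a p ∉ X) →
      ∑ p ∈ P, (p : ℝ) ^ (-s) ≤ (1 / 4 : ℝ) * lg s + C)
    (l : ℕ) (hl : l.Prime) (R : ModRep N ε a l) :
    ∃ Pol : Finset (R.k × R.k), Pol.card ≤ X.card * N ∧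
      3 * Nat.card R.r.range ≤ 4 * Nat.card {g : R.r.range //
        ((((g : GL (Fin 2) R.k) : Matrix (Fin 2) (Fin 2) R.k).trace,
          ((g : GL (Fin 2) R.k) : Matrix (Fin 2) (Fin 2) R.k).det) : R.k × R.k) ∈ Pol} := by
  classical
  have hfin : Finite R.r.range := finite_range R.r R.fin
  let φ' : ℂ → R.k := fun x => if h : IsIntegral ℤ x then R.φ ⟨x, h⟩ else 0
  have hφ' : ∀ w : Zb, φ' (w : ℂ) = R.φ w := by
    intro w
    have hw : IsIntegral ℤ (w : ℂ) := w.2
    show (if h : IsIntegral ℤ (w : ℂ) then R.φ ⟨(w : ℂ), h⟩ else 0) = R.φ w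
    rw [dif_pos hw]
  let Pol : Finset (R.k × R.k) :=
    (X ×ˢ (Finset.univ : Finset (ZMod N))).image fun y => (φ' y.1, φ' (ε y.2))
  have hPol : Pol.card ≤ X.card * N := by
    refine (Finset.card_image_le).trans ?_
    rw [Finset.card_product, Finset.card_univ, ZMod.card]
  let td : R.r.range → R.k × R.k := fun g =>
    (((g : GL (Fin 2) R.k) : Matrix (Fin 2) (Fin 2) R.k).trace,
      ((g : GL (Fin 2) R.k) : Matrix (Fin 2) (Fin 2) R.k).det)
  let T : Set R.r.range := {g | td g ∉ Pol}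
  have hT : ∀ g h : R.r.range, g ∈ T → h * g * h⁻¹ ∈ T := by
    intro g h hg
    have e : td (h * g * h⁻¹) = td g := by
      simp only [td]
      have e1 : (((h * g * h⁻¹ : R.r.range) : GL (Fin 2) R.k) : Matrix (Fin 2) (Fin 2) R.k) =
          ((h : GL (Fin 2) R.k) : Matrix (Fin 2) (Fin 2) R.k) *
            ((g : GL (Fin 2) R.k) : Matrix (Fin 2) (Fin 2) R.k) *
            (((h : GL (Fin 2) R.k)⁻¹ : GL (Fin 2) R.k) : Matrix (Fin 2) (Fin 2) R.k) := rfl
      rw [e1, Matrix.trace_units_conj, Matrix.det_units_conj]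
    show td (h * g * h⁻¹) ∉ Pol
    rw [e]
    exact hg
  obtain ⟨C1, hC1⟩ := hCh R.r.range R.r.rangeRestrict R.r.rangeRestrict_surjective
    (finiteLevel_rangeRestrict R.r R.fin) T hT (N * l).primeFactors
  have hNl : N * l ≠ 0 := mul_ne_zero (NeZero.ne N) hl.ne_zero
  have hfrob : ∀ p : ℕ, p.Prime → p ∈ frobSet R.r.rangeRestrict T (N * l).primeFactors →
      ¬ p ∣ N ∧ a p ∉ X := by
    rintro p hp ⟨hpS, A, σ, hA, hσ, hrT⟩
    have hpNl : ¬ p ∣ N * l := fun h => hpS (Nat.mem_primeFactors.2 ⟨hp, h, hNl⟩)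
    refine ⟨fun h => hpNl (Dvd.dvd.mul_right h l), fun haX => hrT ?_⟩
    obtain ⟨t, d, ht, hd, htr, hdet⟩ := R.frob p hp hpNl A hA σ hσ
    show td (R.r.rangeRestrict σ) ∈ Pol
    refine Finset.mem_image.2 ⟨(a p, (p : ZMod N)), Finset.mem_product.2 ⟨haX, Finset.mem_univ _⟩,
      ?_⟩
    show (φ' (a p), φ' (ε (p : ZMod N))) = _
    rw [← ht, ← hd, hφ', hφ', ← htr, ← hdet]
    rfl
  have hbound : ∀ s : ℝ, 1 < s → s ≤ 2 →
      ((Nat.card T : ℝ) / (Nat.card R.r.range : ℝ) - 1 / 4) * lg s ≤ C1 + max C 0 := by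
    intro s hs hs2
    have h1 := hC1 s hs hs2
    have h2 : psumQ (frobSet R.r.rangeRestrict T (N * l).primeFactors) s ≤
        (1 / 4 : ℝ) * lg s + max C 0 := by
      refine psumQ_le _ s hs _ ?_ ?_
      · have := lg_nonneg s hs hs2
        have := le_max_right C 0
        positivity
      · intro F hF
        refine (hX s hs hs2 F (fun p hp => ?_)).trans ?_
        · exact ⟨(hF p hp).1, hfrob p (hF p hp).1 (hF p hp).2⟩
        · have := le_max_left C 0
          linarith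
    linarith
  have hle := lg_unbounded _ _ hbound
  have hGpos : 0 < Nat.card R.r.range := card_range_pos R.r R.fin
  have hGpos' : (0 : ℝ) < (Nat.card R.r.range : ℝ) := by exact_mod_cast hGpos
  have h4 : 4 * Nat.card T ≤ Nat.card R.r.range := by
    have h5 : (Nat.card T : ℝ) / (Nat.card R.r.range : ℝ) ≤ 1 / 4 := by linarith
    rw [div_le_iff₀ hGpos'] at h5
    have h6 : (4 : ℝ) * (Nat.card T : ℝ) ≤ (Nat.card R.r.range : ℝ) := by linarith
    exact_mod_cast h6
  have hsum : Nat.card R.r.range = Nat.card {g : R.r.range // td g ∈ Pol} + Nat.card T := by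
    rw [← Nat.card_sum]
    exact (Nat.card_congr (Equiv.sumCompl fun g : R.r.range => td g ∈ Pol)).symm
  refine ⟨Pol, hPol, ?_⟩
  show 3 * Nat.card R.r.range ≤ 4 * Nat.card {g : R.r.range // td g ∈ Pol}
  omega

end Fermat.Agent.S48.FIN
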