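/-
S48 / FIN : step A, the images of the mod `l` representations are bounded independently of `l`.
-/
import Fermat.Agent.S48.FIN.Det
import Fermat.Agent.S48.FIN.Prop

set_option autoImplicit false

namespace Fermat.Agent.S48.FIN

open Fermat.Agent.FD (Qb GQ lg)

variable {N : ℕ} [NeZero N] {ε : DirichletCharacter ℂ N} {a : ℕ → ℂ}

/-- Step A. -/
theorem bounded_image (hF : HFinset N a) (hCh : HCheb) (hGT : HGT) :
    ∃ B : ℕ, ∀ l : ℕ, l.Prime → B < l → ∀ R : ModRep N ε a l, Nat.card R.r.range ≤ B := by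
  obtain ⟨X, C, hX⟩ := hF (1 / 4) (by norm_num)
  obtain ⟨B, hB⟩ := hGT N.totient (X.card * N) (Nat.totient_pos.mpr (NeZero.pos N))
  refine ⟨B, fun l hl hBl R => ?_⟩
  obtain ⟨Pol, h1, h2⟩ := proportion hCh X C hX l hl R
  haveI := finite_range R.r R.fin
  exact hB l R.k hl hBl R.r.range R.ss (fun g hg => det_pow_eq_one l hl R g hg) Pol h1 h2

end Fermat.Agent.S48.FIN
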