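/-
S48 / FIN : step E, mean of |tr|^2 from (I2) and (I5) (TASK FIN-Dens).
-/
import Fermat.Agent.S48.FIN.Basic

set_option autoImplicit false

namespace Fermat.Agent.S48.FIN

open Fermat.Agent.FD (Qb GQ lg)

variable {N : ℕ} [NeZero N] {ε : DirichletCharacter ℂ N} {a : ℕ → ℂ}

/-- TASK FIN-Dens.  `G = ρ.range` (finite).  `w g = ‖tr g‖^2` is a class function on `G`; let `I` be
the (finite) set of its values and `T t = {g : G | w g = t}`, stable under conjugation.  `hCh` for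
`ρ.rangeRestrict`, `T t`, `S = N.primeFactors` : `(|T t|/|G|) lg s - C t ≤ psumQ (P t) s`,
`P t = frobSet ..`.  A prime `p ∈ P t` does not divide `N` and `‖a p‖^2 = t` (`h`).  So
`sum_psumQ_le` with `Q = {p | ¬ p ∣ N}`, `w p = ‖a p‖^2` and `hRK` give
`∑_t t * psumQ (P t) s ≤ lg s + max C 0`, while `∑_t t |T t| = ∑_g w g`. -/
theorem mean_le_one (hRK : HRK N a) (hCh : HCheb) (ρ : GQ →* GL (Fin 2) ℂ)
    (hρ : GaloisFactorsThroughFiniteLevel ρ)
    (h : ∀ p : ℕ, p.Prime → ¬ p ∣ N → GoodAt N ε a ρ p) :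
    ∑ᶠ g : ρ.range, ‖((g : GL (Fin 2) ℂ) : Matrix (Fin 2) (Fin 2) ℂ).trace‖ ^ 2 ≤
      (Nat.card ρ.range : ℝ) := by
  classical
  have hfin : Finite ρ.range := finite_range ρ hρ
  have hft : Fintype ρ.range := Fintype.ofFinite _
  obtain ⟨C₀, hC₀⟩ := hRK
  let w : ρ.range → ℝ := fun g => ‖((g : GL (Fin 2) ℂ) : Matrix (Fin 2) (Fin 2) ℂ).trace‖ ^ 2
  let I : Finset ℝ := Finset.univ.image w
  let T : ℝ → Set ρ.range := fun t => {g | w g = t}
  have hconj : ∀ t, ∀ g h : ρ.range, g ∈ T t → h * g * h⁻¹ ∈ T t := by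
    intro t g h hg
    show w (h * g * h⁻¹) = t
    have h1 : w (h * g * h⁻¹) = w g := by
      show ‖(((h * g * h⁻¹ : ρ.range) : GL (Fin 2) ℂ) : Matrix (Fin 2) (Fin 2) ℂ).trace‖ ^ 2 = _
      have h2 : (((h * g * h⁻¹ : ρ.range) : GL (Fin 2) ℂ) : Matrix (Fin 2) (Fin 2) ℂ).trace =
          ((g : GL (Fin 2) ℂ) : Matrix (Fin 2) (Fin 2) ℂ).trace :=
        Matrix.trace_units_conj (h : GL (Fin 2) ℂ) _
      rw [h2]
    rw [h1]
    exact hg
  have hsurj : Function.Surjective ρ.rangeRestrict := ρ.rangeRestrict_surjective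
  have hfl := finiteLevel_rangeRestrict ρ hρ
  choose C hC using fun t => hCh ρ.range ρ.rangeRestrict hsurj hfl (T t) (hconj t) N.primeFactors
  let P : ℝ → Set ℕ := fun t => frobSet ρ.rangeRestrict (T t) N.primeFactors
  have hQ : ∀ p : ℕ, p.Prime → p ∉ N.primeFactors → ¬ p ∣ N := by
    intro p hp hpN hd
    exact hpN (Nat.mem_primeFactors.2 ⟨hp, hd, NeZero.ne N⟩)
  have hP : ∀ (t : ℝ) (p : ℕ), p.Prime → p ∈ P t → t = ‖a p‖ ^ 2 := by
    rintro t p hp ⟨hpN, A, σ, hA, hσ, hT⟩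
    have h1 := ((h p hp (hQ p hp hpN) A hA).2 σ hσ).1
    have h2 : w (ρ.rangeRestrict σ) = t := hT
    rw [← h2, ← h1]
    rfl
  have ht0 : ∀ t ∈ I, 0 ≤ t := by
    intro t ht
    obtain ⟨g, -, rfl⟩ := Finset.mem_image.1 ht
    exact sq_nonneg _
  have main : ∀ s : ℝ, 1 < s → s ≤ 2 → ∑ t ∈ I, t * psumQ (P t) s ≤ lg s + max C₀ 0 := by
    intro s h1 h2
    refine sum_psumQ_le I (fun t => t) ht0 P {p | p ∉ N.primeFactors} (fun p => ‖a p‖ ^ 2) s h1 _
      (add_nonneg (lg_nonneg s h1 h2) (le_max_right _ _)) ?_ ?_ ?_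
    · rintro t - p hp
      exact hp.1
    · intro p hp _
      calc ∑ t ∈ I, t * (P t).indicator (fun _ => (1 : ℝ)) p
          ≤ ∑ t ∈ I, if t = ‖a p‖ ^ 2 then ‖a p‖ ^ 2 else 0 := by
            refine Finset.sum_le_sum fun t ht => ?_
            by_cases hpt : p ∈ P t
            · rw [Set.indicator_of_mem hpt, mul_one, if_pos (hP t p hp hpt)]
              exact (hP t p hp hpt).le
            · rw [Set.indicator_of_notMem hpt, mul_zero]
              split_ifs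
              · exact sq_nonneg _
              · exact le_rfl
        _ ≤ ‖a p‖ ^ 2 := by
            rw [Finset.sum_ite_eq']
            split_ifs
            · exact le_rfl
            · exact sq_nonneg _
    · intro F hF
      exact (hC₀ s h1 h2 F fun p hp => ⟨(hF p hp).1, hQ p (hF p hp).1 (hF p hp).2⟩).trans
        (add_le_add_right (le_max_left _ _) _)
  have hc : (∑ t ∈ I, t * ((Nat.card (T t) : ℝ) / (Nat.card ρ.range : ℝ)) - 1) ≤ 0 := by
    apply lg_unbounded _ (max C₀ 0 + ∑ t ∈ I, t * C t)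
    intro s h1 h2
    have h3 : ∑ t ∈ I, t * (((Nat.card (T t) : ℝ) / (Nat.card ρ.range : ℝ)) * lg s - C t) ≤
        ∑ t ∈ I, t * psumQ (P t) s :=
      Finset.sum_le_sum fun t ht => mul_le_mul_of_nonneg_left (hC t s h1 h2) (ht0 t ht)
    have h4 : ∑ t ∈ I, t * (((Nat.card (T t) : ℝ) / (Nat.card ρ.range : ℝ)) * lg s - C t) =
        (∑ t ∈ I, t * ((Nat.card (T t) : ℝ) / (Nat.card ρ.range : ℝ))) * lg s -
          ∑ t ∈ I, t * C t := by
      rw [Finset.sum_mul, ← Finset.sum_sub_distrib]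
      exact Finset.sum_congr rfl fun t _ => by ring
    have h5 := main s h1 h2
    linarith
  have hcard : ∀ t, (Nat.card (T t) : ℝ) = ((Finset.univ.filter fun g => w g = t).card : ℝ) := by
    intro t
    rw [Nat.card_eq_fintype_card]
    congr 1
    exact Fintype.card_of_subtype _ (fun g => by simp [T])
  have hsum : ∑ g : ρ.range, w g = ∑ t ∈ I, t * (Nat.card (T t) : ℝ) := by
    have h1 := Finset.sum_comp (s := (Finset.univ : Finset ρ.range)) (fun t : ℝ => t) w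
    rw [h1]
    refine Finset.sum_congr rfl fun t _ => ?_
    rw [hcard, nsmul_eq_mul, mul_comm]
  have hpos : (0 : ℝ) < (Nat.card ρ.range : ℝ) := by
    exact_mod_cast card_range_pos ρ hρ
  rw [finsum_eq_sum_of_fintype]
  show ∑ g : ρ.range, w g ≤ _
  rw [hsum]
  have h6 : ∑ t ∈ I, t * ((Nat.card (T t) : ℝ) / (Nat.card ρ.range : ℝ)) =
      (∑ t ∈ I, t * (Nat.card (T t) : ℝ)) / (Nat.card ρ.range : ℝ) := by
    rw [Finset.sum_div]
    exact Finset.sum_congr rfl fun t _ => by ring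
  rw [h6, sub_nonpos, div_le_one hpos] at hc
  exact hc

end Fermat.Agent.S48.FIN
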