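/-
S48 / FIN, step D : two auxiliary primes.
-/
import Fermat.Agent.S48.FIN.Basic

set_option autoImplicit false

namespace Fermat.Agent.S48.FIN

open Fermat.Agent.FD (Qb GQ lg)

variable {N : ℕ} [NeZero N] {ε : DirichletCharacter ℂ N} {a : ℕ → ℂ}

/-- TASK FIN-Glue.  `Fermat.Agent.FD.exists_frobenius_of_finiteLevel (ρ.prod ρ')
(Fermat.Agent.FD.factorsThroughFiniteLevel_prod ..) σ T` with `T` the given finite set: a prime
`q ∉ T`, a Frobenius `φ` at a place over `q` and `j` with `(ρ σ, ρ' σ) = (ρ φ, ρ' φ)^j`;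
`h` and `trace_det_pow_eq`. -/
theorem trace_det_eq_of_frob (ρ ρ' : GQ →* GL (Fin 2) ℂ) (hρ : GaloisFactorsThroughFiniteLevel ρ)
    (hρ' : GaloisFactorsThroughFiniteLevel ρ') (T : Finset ℕ)
    (h : ∀ q : ℕ, q.Prime → q ∉ T → ∀ A : ValuationSubring Qb, A.LiesOverPrime q →
      ∀ φ : GQ, A.IsFrobeniusAt φ q →
        ((ρ φ : GL (Fin 2) ℂ) : Matrix (Fin 2) (Fin 2) ℂ).trace =
          ((ρ' φ : GL (Fin 2) ℂ) : Matrix (Fin 2) (Fin 2) ℂ).trace ∧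
        ((ρ φ : GL (Fin 2) ℂ) : Matrix (Fin 2) (Fin 2) ℂ).det =
          ((ρ' φ : GL (Fin 2) ℂ) : Matrix (Fin 2) (Fin 2) ℂ).det) (σ : GQ) :
    ((ρ σ : GL (Fin 2) ℂ) : Matrix (Fin 2) (Fin 2) ℂ).trace =
        ((ρ' σ : GL (Fin 2) ℂ) : Matrix (Fin 2) (Fin 2) ℂ).trace ∧
      ((ρ σ : GL (Fin 2) ℂ) : Matrix (Fin 2) (Fin 2) ℂ).det =
        ((ρ' σ : GL (Fin 2) ℂ) : Matrix (Fin 2) (Fin 2) ℂ).det := by
  obtain ⟨q, A, φ, hq, hqT, hA, hφ, -, -, ⟨j, hj⟩⟩ :=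
    Fermat.Agent.FD.exists_frobenius_of_finiteLevel (ρ.prod ρ')
      (Fermat.Agent.FD.factorsThroughFiniteLevel_prod ρ ρ' hρ hρ') σ T
  have h1 : ρ σ = ρ φ ^ j := congrArg Prod.fst hj
  have h2 : ρ' σ = ρ' φ ^ j := congrArg Prod.snd hj
  obtain ⟨ht, hd⟩ := h q hq hqT A hA φ hφ
  have h3 := trace_det_pow_eq _ _ ht hd j
  rw [h1, h2, Units.val_pow_eq_pow_val, Units.val_pow_eq_pow_val]
  exact h3

/-- TASK FIN-Glue.  If `p ≠ l` use `h`.  If `p = l` (so `l ∤ N`, `l ∤ N l'`): by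
`trace_det_eq_of_frob` with `T = (N * l * l').primeFactors`, `ρ` and `ρ'` have the same trace and
determinant everywhere.  `σ` in the inertia group: `ρ' σ = 1`, so `tr (ρ σ) = 2`, `det (ρ σ) = 1`,
`(ρ σ)^n = 1` with `n = |range ρ| > 0`; `eq_one_of_unipotent`.  `σ` a Frobenius: transport `h'`. -/
theorem glue (ρ ρ' : GQ →* GL (Fin 2) ℂ) (hρ : GaloisFactorsThroughFiniteLevel ρ)
    (hρ' : GaloisFactorsThroughFiniteLevel ρ') (l l' : ℕ) (hl : l.Prime) (hl' : l'.Prime)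
    (hne : l ≠ l') (h : ∀ p : ℕ, p.Prime → ¬ p ∣ N * l → GoodAt N ε a ρ p)
    (h' : ∀ p : ℕ, p.Prime → ¬ p ∣ N * l' → GoodAt N ε a ρ' p) (p : ℕ) (hp : p.Prime)
    (hpN : ¬ p ∣ N) : GoodAt N ε a ρ p := by
  by_cases hpl : p = l
  · subst hpl
    have hne0 : N * p * l' ≠ 0 := mul_ne_zero (mul_ne_zero (NeZero.ne N) hp.ne_zero) hl'.ne_zero
    have hsame := trace_det_eq_of_frob ρ ρ' hρ hρ' (N * p * l').primeFactors
      (fun q hq hqT A hA φ hφ => by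
        have hq1 : ¬ q ∣ N * p * l' := fun hd => hqT (Nat.mem_primeFactors.mpr ⟨hq, hd, hne0⟩)
        have g1 := (h q hq (fun hd => hq1 (Dvd.dvd.mul_right hd l')) A hA).2 φ hφ
        have g2 := (h' q hq (fun hd => hq1 (by
          have := Dvd.dvd.mul_right hd p
          rwa [mul_right_comm] at this)) A hA).2 φ hφ
        exact ⟨g1.1.trans g2.1.symm, g1.2.trans g2.2.symm⟩)
    have hpl' : ¬ p ∣ N * l' := by
      intro hd
      rcases (Nat.Prime.dvd_mul hp).mp hd with h1 | h1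
      · exact hpN h1
      · exact hne ((Nat.prime_dvd_prime_iff_eq hp hl').mp h1)
    intro A hA
    obtain ⟨hin, hfr⟩ := h' p hp hpl' A hA
    refine ⟨fun σ hσ => ?_, fun σ hσ => ?_⟩
    · have h1 := hin σ hσ
      obtain ⟨ht, hd⟩ := hsame σ
      rw [h1] at ht hd
      apply Units.ext
      refine eq_one_of_unipotent _ (Nat.card ρ.range) (card_range_pos ρ hρ) ?_ ?_ ?_
      · rw [← Units.val_pow_eq_pow_val, pow_card_range_eq_one ρ hρ σ]
        rfl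
      · rw [ht]
        simp
      · rw [hd]
        simp
    · obtain ⟨ht, hd⟩ := hsame σ
      obtain ⟨g1, g2⟩ := hfr σ hσ
      exact ⟨ht.trans g1, hd.trans g2⟩
  · refine h p hp ?_
    intro hd
    rcases (Nat.Prime.dvd_mul hp).mp hd with h1 | h1
    · exact hpN h1
    · exact hpl ((Nat.prime_dvd_prime_iff_eq hp hl).mp h1)

end Fermat.Agent.S48.FIN
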