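/-
S48 / FIN : step C, injectivity of the reduction on small sets (TASK FIN-Inj).
-/
import Fermat.Agent.S48.FIN.Basic

set_option autoImplicit false

namespace Fermat.Agent.S48.FIN

open Fermat.Agent.FD (Qb GQ lg)

/-- TASK FIN-Inj.  For `l` large every `φ : Zb → k`, `char k = l`, is injective on the set of
the sums and on the set of the products of two `n`-th roots of unity.  Proof:
`Z = {x - y ≠ 0 : x, y ∈ Y}`, `Y = {α + β} ∪ {α β}` finite (`finite_rootsOfUnity`), and
`exists_bound_ne_zero_finset`. -/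
theorem exists_bound_injOn (n : ℕ) (hn : 0 < n) :
    ∃ c : ℕ, ∀ (l : ℕ) (k : Type) [Field k] [CharP k l] (φ : Zb →+* k), c < l →
      ∀ α β α' β' : Zb, α ^ n = 1 → β ^ n = 1 → α' ^ n = 1 → β' ^ n = 1 →
        (φ (α + β) = φ (α' + β') → α + β = α' + β') ∧
        (φ (α * β) = φ (α' * β') → α * β = α' * β') := by
  classical
  set R : Finset Zb := (finite_rootsOfUnity n hn).toFinset with hR
  have hmem : ∀ x : Zb, x ^ n = 1 → x ∈ R := fun x hx => by
    rw [hR, Set.Finite.mem_toFinset]; exact hx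
  set Q : Finset (Zb × Zb × Zb × Zb) := R ×ˢ R ×ˢ R ×ˢ R with hQ
  set Z : Finset Zb := ((Q.image fun t => t.1 + t.2.1 - (t.2.2.1 + t.2.2.2)) ∪
    (Q.image fun t => t.1 * t.2.1 - t.2.2.1 * t.2.2.2)).filter (fun z => z ≠ 0) with hZ
  obtain ⟨c, hc⟩ := exists_bound_ne_zero_finset Z (fun z hz => (Finset.mem_filter.mp hz).2)
  refine ⟨c, fun l k _ _ φ hl α β α' β' hα hβ hα' hβ' => ?_⟩
  have hq : (α, β, α', β') ∈ Q := by
    simp only [hQ, Finset.mem_product]
    exact ⟨hmem _ hα, hmem _ hβ, hmem _ hα', hmem _ hβ'⟩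
  constructor
  · intro h
    by_contra hne
    have hz : α + β - (α' + β') ∈ Z := by
      rw [hZ, Finset.mem_filter]
      exact ⟨Finset.mem_union_left _ (Finset.mem_image.mpr ⟨_, hq, rfl⟩), sub_ne_zero.mpr hne⟩
    exact hc l k φ hl _ hz (by rw [map_sub, h, sub_self])
  · intro h
    by_contra hne
    have hz : α * β - α' * β' ∈ Z := by
      rw [hZ, Finset.mem_filter]
      exact ⟨Finset.mem_union_right _ (Finset.mem_image.mpr ⟨_, hq, rfl⟩), sub_ne_zero.mpr hne⟩
    exact hc l k φ hl _ hz (by rw [map_sub, h, sub_self])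

end Fermat.Agent.S48.FIN
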