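/-
S48 / FIN : step E, mean of |tr|^2 for a reducible group (TASK FIN-Mean).
-/
import Fermat.Agent.S48.FIN.Basic

set_option autoImplicit false

namespace Fermat.Agent.S48.FIN

open Fermat.Agent.FD (Qb GQ lg)

/-- TASK FIN-Mean.  A finite group of matrices with a common eigenvector: the mean of `|tr|^2` is
at least `2`.  Proof: `g *ᵥ v = χ₁ g • v` defines `χ₁ : G →* ℂˣ` (or `→* ℂ`), `χ₂ = det / χ₁`;
`χ₁ g` is a root of the characteristic polynomial so `tr g = χ₁ g + χ₂ g`;
`‖χ_i g‖ = 1` (finite order: `Complex.norm_eq_one_of_pow_eq_one`); `‖x + y‖^2 = 2 + 2 Re (x / y)`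
for `‖x‖ = ‖y‖ = 1`; `∑_g (χ₁/χ₂)(g) ∈ {0, |G|}` (`sum_hom_units`), in particular its real part
is `≥ 0`. -/
theorem two_le_mean (G : Subgroup (GL (Fin 2) ℂ)) [Finite G] (v : Fin 2 → ℂ) (hv : v ≠ 0)
    (h : ∀ g ∈ G, ∃ c : ℂ, ((g : GL (Fin 2) ℂ) : Matrix (Fin 2) (Fin 2) ℂ).mulVec v = c • v) :
    2 * (Nat.card G : ℝ) ≤
      ∑ᶠ g : G, ‖((g : GL (Fin 2) ℂ) : Matrix (Fin 2) (Fin 2) ℂ).trace‖ ^ 2 := by
  classical
  have := Fintype.ofFinite G
  rw [finsum_eq_sum_of_fintype, Nat.card_eq_fintype_card]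
  -- the matrix of `g`
  let M : G → Matrix (Fin 2) (Fin 2) ℂ := fun g => ((g : GL (Fin 2) ℂ) : Matrix (Fin 2) (Fin 2) ℂ)
  have hM1 : M 1 = 1 := rfl
  have hMmul : ∀ g h : G, M (g * h) = M g * M h := fun g h => rfl
  choose c hc using fun g : G => h g.1 g.2
  have hc' : ∀ g : G, (M g).mulVec v = c g • v := hc
  have hinj : ∀ x y : ℂ, x • v = y • v → x = y := by
    intro x y hxy
    have : (x - y) • v = 0 := by rw [sub_smul, hxy, sub_self]
    rcases smul_eq_zero.mp this with h0 | h0
    · exact sub_eq_zero.mp h0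
    · exact absurd h0 hv
  have hc1 : c 1 = 1 := by
    apply hinj
    rw [← hc', hM1, Matrix.one_mulVec, one_smul]
  have hcmul : ∀ g h : G, c (g * h) = c g * c h := by
    intro g h
    apply hinj
    rw [← hc', hMmul, ← Matrix.mulVec_mulVec, hc', Matrix.mulVec_smul, hc', smul_smul, mul_comm]
  let χ : G →* ℂ := { toFun := c, map_one' := hc1, map_mul' := hcmul }
  let δ : G →* ℂ :=
    { toFun := fun g => (M g).det
      map_one' := by rw [hM1, Matrix.det_one]
      map_mul' := fun g h => by rw [hMmul, Matrix.det_mul] }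
  have hcard : 0 < Fintype.card G := Fintype.card_pos
  have hnorm : ∀ (f : G →* ℂ) (g : G), ‖f g‖ = 1 := by
    intro f g
    apply Complex.norm_eq_one_of_pow_eq_one (n := Fintype.card G) _ hcard.ne'
    rw [← map_pow, pow_card_eq_one, map_one]
  have hne : ∀ (f : G →* ℂ) (g : G), f g ≠ 0 := by
    intro f g h0
    have := hnorm f g
    rw [h0, norm_zero] at this
    exact zero_ne_one this
  -- the trace
  have htr : ∀ g : G, (M g).trace = χ g + δ g / χ g := by
    intro g
    have hdet : (M g - c g • (1 : Matrix (Fin 2) (Fin 2) ℂ)).det = 0 := by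
      rw [← Matrix.exists_mulVec_eq_zero_iff]
      refine ⟨v, hv, ?_⟩
      rw [Matrix.sub_mulVec, hc', Matrix.smul_mulVec, Matrix.one_mulVec, sub_self]
    have hχ : χ g ≠ 0 := hne χ g
    have e1 : χ g = c g := rfl
    have e2 : δ g = (M g).det := rfl
    rw [Matrix.det_fin_two] at hdet
    simp only [Matrix.sub_apply, Matrix.smul_apply, Matrix.one_apply_eq, smul_eq_mul, mul_one,
      ne_eq, Fin.isValue, zero_ne_one, one_ne_zero, not_false_eq_true, Matrix.one_apply_ne,
      mul_zero, sub_zero] at hdet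
    rw [Matrix.trace_fin_two, e2, Matrix.det_fin_two, eq_comm, ← sub_eq_zero]
    rw [← e1] at hdet
    field_simp
    linear_combination hdet
  let ψ : G →* ℂ :=
    { toFun := fun g => χ g * χ g / δ g
      map_one' := by simp
      map_mul' := fun g h => by
        have h1 := hne δ g
        have h2 := hne δ h
        rw [map_mul, map_mul]
        field_simp }
  have hsq : ∀ g : G, ‖(M g).trace‖ ^ 2 = 2 + 2 * (ψ g).re := by
    intro g
    have hx : Complex.normSq (χ g) = 1 := by rw [← Complex.sq_norm, hnorm, one_pow]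
    have hy' : ‖δ g / χ g‖ = 1 := by rw [norm_div, hnorm, hnorm, div_one]
    have hy : Complex.normSq (δ g / χ g) = 1 := by rw [← Complex.sq_norm, hy', one_pow]
    have hconj : (starRingEnd ℂ) (δ g / χ g) = (δ g / χ g)⁻¹ := by
      rw [Complex.inv_def, hy]; simp
    rw [htr, Complex.sq_norm, Complex.normSq_add, hx, hy, hconj]
    have : χ g * (δ g / χ g)⁻¹ = ψ g := by
      show _ = χ g * χ g / δ g
      rw [inv_div, mul_div_assoc]
    rw [this]
    ring
  have hsum : 0 ≤ (∑ g : G, ψ g).re := by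
    rw [sum_hom_units]
    split_ifs
    · simp
    · simp
  calc 2 * (Fintype.card G : ℝ) ≤ 2 * (Fintype.card G : ℝ) + 2 * (∑ g : G, ψ g).re := by linarith
    _ = ∑ g : G, ‖(M g).trace‖ ^ 2 := by
      rw [Finset.sum_congr rfl (fun g _ => hsq g), Finset.sum_add_distrib, ← Finset.mul_sum,
        Complex.re_sum]
      simp [mul_comm]

end Fermat.Agent.S48.FIN
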