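/-
S48 / FIN : step E, irreducibility (TASK FIN-Irr).
-/
import Fermat.Agent.S48.FIN.Mean
import Fermat.Agent.S48.FIN.Dens

set_option autoImplicit false

namespace Fermat.Agent.S48.FIN

open Fermat.Agent.FD (Qb GQ lg)

variable {N : ℕ} [NeZero N] {ε : DirichletCharacter ℂ N} {a : ℕ → ℂ}

/-- TASK FIN-Irr.  `IsIrreducible = IsSimpleOrder (Subrepresentation _)`.  Nontrivial: `⊥ ≠ ⊤` as
`Fin 2 → ℂ` is nonzero.  Let `W` be a subrepresentation, `W ≠ ⊥`, `W ≠ ⊤`: then
`finrank W.toSubmodule = 1`, `W.toSubmodule = span {v}` (`finrank_eq_one_iff'`), `v ≠ 0`, and every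
`ρ σ` maps `v` to a multiple of `v`: `two_le_mean ρ.range v` and `mean_le_one` give
`2 |G| ≤ |G|`, contradicting `|G| > 0`. -/
theorem irreducible (hRK : HRK N a) (hCh : HCheb) (ρ : GQ →* GL (Fin 2) ℂ)
    (hρ : GaloisFactorsThroughFiniteLevel ρ)
    (h : ∀ p : ℕ, p.Prime → ¬ p ∣ N → GoodAt N ε a ρ p) :
    (Deformation.matrixRepresentation ρ).IsIrreducible := by
  have hfin : Finite ρ.range := finite_range ρ hρ
  have hpos : 0 < Nat.card ρ.range := card_range_pos ρ hρ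
  have hnt : Nontrivial (Subrepresentation (Deformation.matrixRepresentation ρ)) := by
    refine ⟨⊥, ⊤, fun hbt => ?_⟩
    have h1 : (⊥ : Submodule ℂ (Fin 2 → ℂ)) = ⊤ :=
      congrArg Subrepresentation.toSubmodule hbt
    exact bot_ne_top h1
  refine { toNontrivial := hnt, eq_bot_or_eq_top := fun W => ?_ }
  by_contra hW
  push Not at hW
  obtain ⟨hb, ht⟩ := hW
  have hb' : W.toSubmodule ≠ ⊥ := fun e => hb (Subrepresentation.toSubmodule_injective e)
  have ht' : W.toSubmodule ≠ ⊤ := fun e => ht (Subrepresentation.toSubmodule_injective e)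
  have h1 : Module.finrank ℂ W.toSubmodule < 2 := by
    have := Submodule.finrank_lt ht'
    simpa using this
  have h0 : 0 < Module.finrank ℂ W.toSubmodule := by
    rw [Module.finrank_pos_iff]
    exact (Submodule.nontrivial_iff_ne_bot).2 hb'
  have h2 : Module.finrank ℂ W.toSubmodule = 1 := by omega
  obtain ⟨v, hv0, hv⟩ := finrank_eq_one_iff'.1 h2
  have hv0' : (v : Fin 2 → ℂ) ≠ 0 := fun e => hv0 (Subtype.ext e)
  have key : ∀ g ∈ ρ.range, ∃ c : ℂ,
      ((g : GL (Fin 2) ℂ) : Matrix (Fin 2) (Fin 2) ℂ).mulVec (v : Fin 2 → ℂ) =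
        c • (v : Fin 2 → ℂ) := by
    rintro _ ⟨σ, rfl⟩
    have hm : Deformation.matrixRepresentation ρ σ (v : Fin 2 → ℂ) ∈ W.toSubmodule :=
      W.apply_mem_toSubmodule σ v.2
    obtain ⟨c, hc⟩ := hv ⟨_, hm⟩
    refine ⟨c, ?_⟩
    have hc' : c • (v : Fin 2 → ℂ) = Deformation.matrixRepresentation ρ σ (v : Fin 2 → ℂ) :=
      congrArg Subtype.val hc
    rw [Deformation.matrixRepresentation_apply] at hc'
    exact hc'.symm
  have e1 := two_le_mean ρ.range (v : Fin 2 → ℂ) hv0' key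
  have e2 := mean_le_one hRK hCh ρ hρ h
  have e3 : (0 : ℝ) < Nat.card ρ.range := by exact_mod_cast hpos
  linarith

end Fermat.Agent.S48.FIN
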