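/-
S48 / FIN : step C, lifting to characteristic zero for one large prime `l` (TASK FIN-Lift).
-/
import Fermat.Agent.S48.FIN.Inj

set_option autoImplicit false

namespace Fermat.Agent.S48.FIN

open Fermat.Agent.FD (Qb GQ lg)

variable {N : ℕ} [NeZero N] {ε : DirichletCharacter ℂ N} {a : ℕ → ℂ}

/-- a root of unity of `ℂ` is an algebraic integer -/
theorem Lift_exists_Zb (n : ℕ) (hn : 0 < n) (α : ℂ) (hα : α ^ n = 1) :
    ∃ α' : Zb, (α' : ℂ) = α ∧ α' ^ n = 1 := by
  have hint : IsIntegral ℤ α := by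
    refine IsIntegral.of_pow hn ?_
    rw [hα]
    exact isIntegral_one
  refine ⟨⟨α, hint⟩, rfl, ?_⟩
  apply Subtype.ext
  simpa using hα

/-- TASK FIN-Lift.  `n = B !`, `c` from `exists_bound_injOn n`, `l0` from `hG`,
`B' = max (max c B) l0`.  For a prime `l > B'` take `R : ModRep N ε a l`, `G = R.r.range` (finite),
`|G| ≤ B < l` and `|G| > 0` so `l ∤ |G|`; `hLF l R.k R.φ G hl _ G.subtype` gives
`r : G →* GL (Fin 2) ℂ`; `ρ = r.comp R.r.rangeRestrict`: of finite level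
(`finiteLevel_rangeRestrict`, `finiteLevel_comp`).  Unramified at `p ∤ N l`: `R.unram` gives
`R.r σ = 1`, so `R.r.rangeRestrict σ = 1` and `ρ σ = 1`.  Frobenius `σ` at `p ∤ N l`:
`g = R.r.rangeRestrict σ`; `hLF` : `t d : Zb`, `t = tr (r g)`, `d = det (r g)`, `φ t = tr (R.r σ)`,
`φ d = det (R.r σ)`; `R.frob` : `tr (R.r σ) = φ t'`, `det = φ d'`, `t' = a p`, `d' = ε p`.
`(r g)^n = 1` (as `g^n = 1`: `|G| ∣ n`), so by `exists_roots_of_pow_eq_one` (over `ℂ`)
`t = α + β`, `d = α β` with `n`-th roots of unity of `ℂ`, which lie in `Zb`; `hroots` gives the same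
for `t'`, `d'`.  Injectivity: `t = t'`, `d = d'`. -/
theorem exists_lift (hG : HGal N ε a) (hLF : HLF) (B : ℕ)
    (hB : ∀ l : ℕ, l.Prime → B < l → ∀ R : ModRep N ε a l, Nat.card R.r.range ≤ B)
    (hroots : ∀ p : ℕ, p.Prime → ¬ p ∣ N → ∃ α β : ℂ, α ^ B.factorial = 1 ∧ β ^ B.factorial = 1 ∧
      a p = α + β ∧ ε (p : ZMod N) = α * β) :
    ∃ B' : ℕ, ∀ l : ℕ, l.Prime → B' < l → ∃ ρ : GQ →* GL (Fin 2) ℂ,
      GaloisFactorsThroughFiniteLevel ρ ∧ ∀ p : ℕ, p.Prime → ¬ p ∣ N * l → GoodAt N ε a ρ p := by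
  have hn : 0 < B.factorial := Nat.factorial_pos B
  obtain ⟨c, hc⟩ := exists_bound_injOn B.factorial hn
  obtain ⟨l0, hl0⟩ := hG
  refine ⟨max (max c B) l0, fun l hl hBl => ?_⟩
  have hcl : c < l := lt_of_le_of_lt ((le_max_left _ _).trans (le_max_left _ _)) hBl
  have hBl' : B < l := lt_of_le_of_lt ((le_max_right _ _).trans (le_max_left _ _)) hBl
  have hl0l : l0 < l := lt_of_le_of_lt (le_max_right _ _) hBl
  obtain ⟨R⟩ := hl0 l hl hl0l
  have hfin : Finite R.r.range := finite_range R.r R.fin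
  have hpos : 0 < Nat.card R.r.range := card_range_pos R.r R.fin
  have hle : Nat.card R.r.range ≤ B := hB l hl hBl' R
  have hnd : ¬ l ∣ Nat.card R.r.range := fun h =>
    absurd (Nat.le_of_dvd hpos h) (by omega)
  have hdvd : Nat.card R.r.range ∣ B.factorial := Nat.dvd_factorial hpos hle
  obtain ⟨r, hr⟩ := hLF l R.k R.φ R.r.range hl hnd R.r.range.subtype
  refine ⟨r.comp R.r.rangeRestrict,
    finiteLevel_comp _ r (finiteLevel_rangeRestrict R.r R.fin), fun p hp hpN A hA => ⟨?_, ?_⟩⟩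
  · intro σ hσ
    have h1 : R.r σ = 1 := R.unram p hp hpN A hA σ hσ
    have h2 : R.r.rangeRestrict σ = 1 := Subtype.ext h1
    rw [MonoidHom.comp_apply, h2, map_one]
  · intro σ hσ
    have hpN' : ¬ p ∣ N := fun h => hpN (Dvd.dvd.mul_right h l)
    obtain ⟨t, d, ht, hd, hφt, hφd⟩ := hr (R.r.rangeRestrict σ)
    obtain ⟨t', d', ht', hd', hφt', hφd'⟩ := R.frob p hp hpN A hA σ hσ
    have hg : R.r.rangeRestrict σ ^ B.factorial = 1 := by
      apply Subtype.ext
      obtain ⟨m, hm⟩ := hdvd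
      have := pow_card_range_eq_one R.r R.fin σ
      simp only [SubmonoidClass.coe_pow, MonoidHom.coe_rangeRestrict, OneMemClass.coe_one]
      rw [hm, pow_mul, this, one_pow]
    have hM : ((r (R.r.rangeRestrict σ) : GL (Fin 2) ℂ) : Matrix (Fin 2) (Fin 2) ℂ) ^ B.factorial
        = 1 := by
      rw [← Units.val_pow_eq_pow_val, ← map_pow, hg, map_one, Units.val_one]
    obtain ⟨u, v, hu, hv, htr, hdet⟩ := exists_roots_of_pow_eq_one _ _ hM
    obtain ⟨α, β, hα, hβ, hap, hεp⟩ := hroots p hp hpN'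
    obtain ⟨u', hu', hu'1⟩ := Lift_exists_Zb _ hn u hu
    obtain ⟨v', hv', hv'1⟩ := Lift_exists_Zb _ hn v hv
    obtain ⟨α', hα', hα'1⟩ := Lift_exists_Zb _ hn α hα
    obtain ⟨β', hβ', hβ'1⟩ := Lift_exists_Zb _ hn β hβ
    have e1 : t = u' + v' := by
      apply Subtype.ext
      rw [ht, htr]
      simp [hu', hv']
    have e2 : d = u' * v' := by
      apply Subtype.ext
      rw [hd, hdet]
      simp [hu', hv']
    have e3 : t' = α' + β' := by
      apply Subtype.ext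
      rw [ht', hap]
      simp [hα', hβ']
    have e4 : d' = α' * β' := by
      apply Subtype.ext
      rw [hd', hεp]
      simp [hα', hβ']
    obtain ⟨i1, i2⟩ := hc l R.k R.φ hcl u' v' α' β' hu'1 hv'1 hα'1 hβ'1
    have hsub : (R.r.range.subtype (R.r.rangeRestrict σ)) = R.r σ := rfl
    rw [hsub] at hφt hφd
    have f1 : t = t' := by
      rw [e1, e3]
      apply i1
      rw [← e1, ← e3, hφt, hφt']
    have f2 : d = d' := by
      rw [e2, e4]
      apply i2
      rw [← e2, ← e4, hφd, hφd']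
    refine ⟨?_, ?_⟩
    · rw [MonoidHom.comp_apply, ← ht, f1, ht']
    · rw [MonoidHom.comp_apply, ← hd, f2, hd']

end Fermat.Agent.S48.FIN
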