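import Fermat.Agent.S48.R48.Main

/-!
# S48 / FIN : the right-hand side (no modular forms)

Route '48' (board #1262) lives in `Fermat/Agent/S48/R48/` (namespace `Fermat.Agent.S48.R48`); the other files of
`S48/FIN/` are helper46's library for the final steps (matrices, levels, glueing), reused by R48.
-/

set_option autoImplicit false

namespace Fermat.Agent.S48.FIN

/-- **(I6)** -/
theorem main (N : ℕ) (hN : N ≠ 0) (a e : ℕ → ℂ)
    (he : ∃ n : ℕ, 0 < n ∧ ∀ p : ℕ, p.Prime → ¬ p ∣ N → e p ^ n = 1)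
    (hint : ∀ p : ℕ, p.Prime → ¬ p ∣ N → IsIntegral ℤ (a p))
    (hRK : ∀ σ : ℂ →+* ℂ, UpperDens (fun p => ¬ p ∣ N) (fun p => ‖σ (a p)‖ ^ 2) 1)
    (hX : ∀ η : ℝ, 0 < η → ∃ X : Finset ℂ, UpperDens (fun p => ¬ p ∣ N ∧ a p ∉ X) (fun _ => 1) η)
    (hGal : HasModReps N a e) :
    ∃ ρ : GQ →* GL (Fin 2) ℂ, GaloisFactorsThroughFiniteLevel ρ ∧
      (Deformation.matrixRepresentation ρ).IsIrreducible ∧
      ∀ p : ℕ, p.Prime → ¬ p ∣ N →
        ∀ A : ValuationSubring Qb, A.LiesOverPrime p →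
          (∀ σ ∈ A.inertiaSubgroupIn ℚ, ρ σ = 1) ∧
          ∀ σ : GQ, A.IsFrobeniusAt σ p →
            ((ρ σ : GL (Fin 2) ℂ) : Matrix (Fin 2) (Fin 2) ℂ).trace = a p ∧
            ((ρ σ : GL (Fin 2) ℂ) : Matrix (Fin 2) (Fin 2) ℂ).det = e p :=
  R48.main N hN a e he hint hRK hX hGal

end Fermat.Agent.S48.FIN
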