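/-
S48 / FIN, step B : `X^2 - a_p X + ε(p) = (X - α)(X - β)` with roots of unity of bounded order.
-/
import Fermat.Agent.S48.FIN.Basic

set_option autoImplicit false

namespace Fermat.Agent.S48.FIN

open Fermat.Agent.FD (Qb GQ lg)

variable {N : ℕ} [NeZero N] {ε : DirichletCharacter ℂ N} {a : ℕ → ℂ}

/-- TASK FIN-Roots.  `n = B !`.  Let `t d : Zb` be `a p` (`hI`) and `ε p` (a root of unity or `0`,
in any case integral: `ε p ^ φ(N) = 1` as `p ∤ N`).  Suppose that for every pair `(α, β)` of `n`-th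
roots of unity in `Zb` (a finite set, `finite_rootsOfUnity`) `t ≠ α + β` or `d ≠ α β`; let
`z (α, β)` be `t - α - β` if this is nonzero and `d - α β` otherwise: a finite family of nonzero
elements of `Zb`; `exists_bound_ne_zero_finset` gives `c`.  Choose a prime `l > max (max c B)
(max l0 p)` (`Nat.exists_infinite_primes`), `R : ModRep N ε a l` (`hG`), a place `A` over `p` and a
Frobenius `σ` (`Fermat.Agent.S54.exists_frob` or `exists_liesOverPrime` + `exists_isFrobeniusAt`);
`p ∤ N l`.  `R.frob` : `tr = φ t'`, `det = φ d'` with `t' = t`, `d' = d` (`Subtype.ext`).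
`(R.r σ)^n = 1` since `(R.r σ)^|G| = 1` (`pow_card_range_eq_one`) and `|G| ∣ B !`
(`Nat.dvd_factorial`, `card_range_pos`, `hB`).  `exists_roots_of_pow_eq_one` : `tr = u + v`,
`det = u v`, `u^n = v^n = 1`; `exists_root_of_unity_lift` : `u = φ α`, `v = φ β`.  So
`φ (t - α - β) = 0` and `φ (d - α β) = 0`, contradicting `φ (z (α, β)) ≠ 0`. -/
theorem roots_of_unity (hI : HInt N a) (hG : HGal N ε a) (B : ℕ)
    (hB : ∀ l : ℕ, l.Prime → B < l → ∀ R : ModRep N ε a l, Nat.card R.r.range ≤ B)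
    (p : ℕ) (hp : p.Prime) (hpN : ¬ p ∣ N) :
    ∃ α β : ℂ, α ^ B.factorial = 1 ∧ β ^ B.factorial = 1 ∧ a p = α + β ∧
      ε (p : ZMod N) = α * β := by
  classical
  obtain ⟨n, hn⟩ : ∃ n, n = B.factorial := ⟨_, rfl⟩
  rw [← hn]
  have hn0 : 0 < n := hn ▸ Nat.factorial_pos B
  have hdint : IsIntegral ℤ (ε (p : ZMod N)) := by
    have hu : IsUnit ((p : ZMod N)) :=
      (ZMod.isUnit_iff_coprime p N).2 ((Nat.Prime.coprime_iff_not_dvd hp).2 hpN)
    obtain ⟨u, hu⟩ := hu
    have h1 : ε (p : ZMod N) ^ Fintype.card (ZMod N)ˣ = 1 := by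
      rw [← hu, ← map_pow, ← Units.val_pow_eq_pow_val, pow_card_eq_one, Units.val_one, map_one]
    exact IsIntegral.of_pow Fintype.card_pos (h1 ▸ isIntegral_one)
  let t : Zb := ⟨a p, hI p hp hpN⟩
  let d : Zb := ⟨ε (p : ZMod N), hdint⟩
  suffices h : ∃ α β : Zb, α ^ n = 1 ∧ β ^ n = 1 ∧ t = α + β ∧ d = α * β by
    obtain ⟨α, β, h1, h2, h3, h4⟩ := h
    exact ⟨α, β, congrArg Subtype.val h1, congrArg Subtype.val h2, congrArg Subtype.val h3,
      congrArg Subtype.val h4⟩
  by_contra hcon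
  push Not at hcon
  let U : Finset Zb := (finite_rootsOfUnity n hn0).toFinset
  have hU : ∀ α : Zb, α ∈ U ↔ α ^ n = 1 := fun α => Set.Finite.mem_toFinset _
  let z : Zb × Zb → Zb := fun x => if t - x.1 - x.2 = 0 then d - x.1 * x.2 else t - x.1 - x.2
  have hz : ∀ w ∈ (U ×ˢ U).image z, w ≠ 0 := by
    intro w hw
    obtain ⟨⟨α, β⟩, hx, rfl⟩ := Finset.mem_image.1 hw
    rw [Finset.mem_product] at hx
    have hα : α ^ n = 1 := (hU α).1 hx.1
    have hβ : β ^ n = 1 := (hU β).1 hx.2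
    simp only [z]
    split_ifs with h
    · have h3 : t = α + β := by linear_combination h
      exact sub_ne_zero.2 (hcon α β hα hβ h3)
    · exact h
  obtain ⟨c, hc⟩ := exists_bound_ne_zero_finset _ hz
  obtain ⟨l0, hl0⟩ := hG
  obtain ⟨l, hlge, hl⟩ := Nat.exists_infinite_primes (max (max c B) (max l0 p) + 1)
  have hcl : c < l := by
    have := le_max_left c B
    have := le_max_left (max c B) (max l0 p)
    omega
  have hBl : B < l := by
    have := le_max_right c B
    have := le_max_left (max c B) (max l0 p)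
    omega
  have hl0l : l0 < l := by
    have := le_max_left l0 p
    have := le_max_right (max c B) (max l0 p)
    omega
  have hpl : p < l := by
    have := le_max_right l0 p
    have := le_max_right (max c B) (max l0 p)
    omega
  obtain ⟨R⟩ := hl0 l hl hl0l
  obtain ⟨A, hA, σ, hσ⟩ := Fermat.Agent.S54.exists_frob p hp
  have hpNl : ¬ p ∣ N * l := by
    intro h
    rcases (Nat.Prime.dvd_mul hp).1 h with h | h
    · exact hpN h
    · have := (Nat.prime_dvd_prime_iff_eq hp hl).1 h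
      omega
  obtain ⟨t', d', ht', hd', htr, hdet⟩ := R.frob p hp hpNl A hA σ hσ
  have ht'' : t' = t := Subtype.ext ht'
  have hd'' : d' = d := Subtype.ext hd'
  rw [ht''] at htr
  rw [hd''] at hdet
  have hpow : ((R.r σ : GL (Fin 2) R.k) : Matrix (Fin 2) (Fin 2) R.k) ^ n = 1 := by
    have h2 := pow_card_range_eq_one R.r R.fin σ
    have hdvd : Nat.card R.r.range ∣ n :=
      hn ▸ Nat.dvd_factorial (card_range_pos R.r R.fin) (hB l hl hBl R)
    obtain ⟨m, hm⟩ := hdvd
    rw [← Units.val_pow_eq_pow_val, hm, pow_mul, h2, one_pow, Units.val_one]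
  obtain ⟨u, v, hu, hv, htr', hdet'⟩ := exists_roots_of_pow_eq_one _ n hpow
  obtain ⟨α, hα, rfl⟩ := exists_root_of_unity_lift n hn0 R.φ u hu
  obtain ⟨β, hβ, rfl⟩ := exists_root_of_unity_lift n hn0 R.φ v hv
  have hmem : z (α, β) ∈ (U ×ˢ U).image z :=
    Finset.mem_image_of_mem z (Finset.mem_product.2 ⟨(hU α).2 hα, (hU β).2 hβ⟩)
  apply hc l R.k R.φ hcl _ hmem
  simp only [z]
  split_ifs with h
  · rw [map_sub, map_mul, ← hdet, hdet', sub_self]
  · rw [map_sub, map_sub, ← htr, htr']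
    ring

end Fermat.Agent.S48.FIN
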