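/-
S48 / FIN : (I1)-(I5) + GT + LF ==> the representation.
-/
import Fermat.Agent.S48.FIN.Bound
import Fermat.Agent.S48.FIN.Roots
import Fermat.Agent.S48.FIN.Lift
import Fermat.Agent.S48.FIN.Glue
import Fermat.Agent.S48.FIN.Irred

set_option autoImplicit false

namespace Fermat.Agent.S48.FIN

open Fermat.Agent.FD (Qb GQ lg)

/-- **FIN**. -/
theorem fin_main (N : ℕ) [NeZero N] (ε : DirichletCharacter ℂ N) (a : ℕ → ℂ)
    (hI : HInt N a) (hRK : HRK N a) (hF : HFinset N a) (hG : HGal N ε a) (hCh : HCheb)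
    (hGT : HGT) (hLF : HLF) :
    ∃ ρ : GQ →* GL (Fin 2) ℂ, GaloisFactorsThroughFiniteLevel ρ ∧
      (Deformation.matrixRepresentation ρ).IsIrreducible ∧
      ∀ p : ℕ, p.Prime → ¬ p ∣ N →
        ∀ A : ValuationSubring (AlgebraicClosure ℚ), A.LiesOverPrime p →
          (∀ σ ∈ A.inertiaSubgroupIn ℚ, ρ σ = 1) ∧
          ∀ σ : GQ, A.IsFrobeniusAt σ p →
            ((ρ σ : GL (Fin 2) ℂ) : Matrix (Fin 2) (Fin 2) ℂ).trace = a p ∧
            ((ρ σ : GL (Fin 2) ℂ) : Matrix (Fin 2) (Fin 2) ℂ).det = ε (p : ZMod N) := by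
  obtain ⟨B, hB⟩ := bounded_image (ε := ε) hF hCh hGT
  have hroots := roots_of_unity hI hG B hB
  obtain ⟨B', hB'⟩ := exists_lift hG hLF B hB hroots
  obtain ⟨l, hl1, hl⟩ := Nat.exists_infinite_primes (B' + 1)
  obtain ⟨l', hl1', hl'⟩ := Nat.exists_infinite_primes (l + 1)
  obtain ⟨ρ, hρ, h⟩ := hB' l hl (by omega)
  obtain ⟨ρ', hρ', h'⟩ := hB' l' hl' (by omega)
  have hgood := glue ρ ρ' hρ hρ' l l' hl hl' (by omega) h h'
  exact ⟨ρ, hρ, irreducible hRK hCh ρ hρ hgood, hgood⟩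

end Fermat.Agent.S48.FIN
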